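import Fermat.Agent.BAD.Ordinary.TowerOrdinary
import Mathlib.Algebra.MonoidAlgebra.Lift

/-!
# Frobenius on the unramified quotient satisfies the congruence relation

If on every level of a tower the operator `φ ^ 2 - r φ + p` takes values in a subgroup free of
tame fixed points in the `(1, χ)` part, the scalar by which `φ` acts on the quotient of an ordinary
line is a root of `X ^ 2 - τ r X + p`.
-/

set_option autoImplicit false
set_option maxHeartbeats 800000

noncomputable section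

open IsLocalRing
open Fermat.Agent.TraceFn Fermat.Agent.BAD.Ordinary

namespace Fermat.Agent.R59.UnitRoot

local notation "Qbar" => AlgebraicClosure ℚ
local notation "Γℚ" => AlgebraicClosure ℚ ≃ₐ[ℚ] AlgebraicClosure ℚ

/-- Multiplicativity of the lower right entry when the left factor fixes the first axis. -/
theorem repr_mul_one {A V : Type*} [CommRing A] [AddCommGroup V] [Module A V]
    (b : Module.Basis (Fin 2) A V) {f : Module.End A V} (hf : b.repr (f (b 0)) 1 = 0)
    (g : Module.End A V) :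
    b.repr ((f * g) (b 1)) 1 = b.repr (f (b 1)) 1 * b.repr (g (b 1)) 1 := by
  rw [Module.End.mul_apply]
  conv_lhs => rw [← b.sum_repr (g (b 1))]
  rw [Fin.sum_univ_two, map_add, map_smul, map_smul]
  simp only [map_add, map_smul, Finsupp.add_apply, Finsupp.smul_apply, smul_eq_mul, hf, mul_zero,
    zero_add]
  ring

variable {p : ℕ} [Fact p.Prime] {S : Finset ℕ} {R : Type} [CommRing R] {a : ℕ → R}
  (D : QuadraticTower p S R a) {T : Type} [CommRing T] [IsLocalRing T] [IsNoetherianRing T]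
  {ρ : GaloisRepAdic T} {τ : R →+* T}

/-- **The congruence relation on the unramified quotient.** -/
theorem quot_frobenius_root (hp2 : p ≠ 2) (hpS : p ∈ S)
    (hρ : QuadraticTower.FrobCompatible (S := S) (a := a) ρ τ)
    (hpT : (p : T) ∈ maximalIdeal T)
    (hres : (GaloisRepAdic.ofResidualGaloisRep ρ.residual).IsOrdinaryAt p)
    {P : ValuationSubring Qbar} (hP : P.LiesOverPrime p)
    (hsepτ : D.IsSeparating τ) (hirr : ρ.residual.IsAbsolutelyIrreducible)
    (hfin : ∀ n, Finite (D.X n)) (K : ∀ n, AddSubgroup (D.X n))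
    (hK2 : ∀ n, ∀ σ ∈ P.inertiaSubgroupIn ℚ, ∀ x ∈ K n, D.gal n σ x ∈ K n)
    (hK3 : ∀ n, ∀ U : AddSubgroup (D.X n),
      (∀ σ ∈ P.inertiaSubgroupIn ℚ, ∀ x ∈ U, D.gal n σ x ∈ U) →
      (∀ g ∈ P.inertiaSubgroupIn ℚ, ∀ c : ℕ, g (zetaPow p 1) = zetaPow p 1 ^ c →
        ∀ x ∈ U, ∃ N : ℕ, (((D.gal n g - 1) * (D.gal n g - c)) ^ N) x = 0) →
      ∀ σ₀ ∈ P.inertiaSubgroupIn ℚ, σ₀ (zetaPow p 1) ≠ zetaPow p 1 →
        ∀ x ∈ U, x ∈ K n → D.gal n σ₀ x = x → x = 0)
    {φ : Γℚ} (r : R)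
    (hrel : ∀ n x, (D.gal n φ * D.gal n φ - D.act n r * D.gal n φ +
      (p : Module.End ℤ (D.X n))) x ∈ K n)
    (b : Module.Basis (Fin 2) T ρ.V) (hφ : b.repr (ρ.ρ φ (b 0)) 1 = 0)
    (hI0 : ∀ σ ∈ P.inertiaSubgroupIn ℚ, b.repr (ρ.ρ σ (b 0)) 1 = 0)
    (hI1 : ∀ σ ∈ P.inertiaSubgroupIn ℚ, b.repr (ρ.ρ σ (b 1)) 1 = 1) :
    b.repr (ρ.ρ φ (b 1)) 1 ^ 2 - τ r * b.repr (ρ.ρ φ (b 1)) 1 + (p : T) = 0 := by
  classical
  have hp : p.Prime := Fact.out
  obtain ⟨σ₀, hσ₀, hne⟩ := exists_tame hP hp2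
  have hζ := zetaPow_spec p 1
  obtain ⟨c₀, -, hc⟩ := hζ.eq_pow_of_pow_eq_one (ξ := σ₀ (zetaPow p 1)) (by
    rw [← map_pow, hζ.pow_eq_one, map_one])
  have hc₀ : 1 ≤ c₀ := by
    rcases Nat.eq_zero_or_pos c₀ with rfl | h
    · rw [pow_zero] at hc
      exact absurd (σ₀.injective (hc.symm.trans (map_one σ₀).symm))
        (hζ.ne_one (by rw [pow_one]; exact hp.one_lt))
    · exact h
  set u := b.repr (ρ.ρ φ (b 1)) 1
  rw [← Ideal.mem_bot, ← Ideal.iInf_pow_eq_bot_of_isLocalRing (maximalIdeal T)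
    (maximalIdeal.isMaximal T).ne_top, Ideal.mem_iInf]
  intro k
  refine Ideal.pow_le_pow_right (Nat.le_succ k) ?_
  obtain ⟨n, hn⟩ := hsepτ (k + 1)
  have := hfin n
  obtain ⟨e, heu, he⟩ := exists_projector D τ n
  obtain ⟨L₀, hL₀⟩ :=
    exists_kill_of_mapsTo D hpS hρ hpT hres hP (K n) (hK2 n) (hK3 n) he hσ₀ hc₀ hc.symm hne
  set M := (p - 1) * p ^ L₀ with hM
  obtain ⟨M', hM'⟩ : ∃ M', M = M' + 1 := Nat.exists_eq_add_one.mpr
    (Nat.mul_pos (by have := hp.two_le; omega) (pow_pos hp.pos _))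
  let Lg : MonoidAlgebra R Γℚ →+* Module.End ℤ (D.X n) :=
    MonoidAlgebra.liftNCRingHom (D.act n) (D.gal n) fun x g => D.commute n x g
  let Lρ : MonoidAlgebra R Γℚ →+* Module.End T ρ.V :=
    MonoidAlgebra.liftNCRingHom ((algebraMap T (Module.End T ρ.V)).comp τ) ρ.ρ
      fun x g => Algebra.commute_algebraMap_left (τ x) (ρ.ρ g)
  have hLg : ∀ g x, Lg (MonoidAlgebra.single g x) = D.act n x * D.gal n g := fun g x =>
    MonoidAlgebra.liftNCRingHom_single _ _ _ g x
  have hLρ : ∀ g x, Lρ (MonoidAlgebra.single g x) = τ x • ρ.ρ g := fun g x => by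
    rw [MonoidAlgebra.liftNCRingHom_single, RingHom.comp_apply, ← Algebra.smul_def]
  have hLgo : ∀ g, Lg (MonoidAlgebra.single g 1) = D.gal n g := fun g => by
    rw [hLg, map_one, one_mul]
  have hLρo : ∀ g, Lρ (MonoidAlgebra.single g 1) = ρ.ρ g := fun g => by
    rw [hLρ, map_one, one_smul]
  let Z : MonoidAlgebra R Γℚ := (1 - (MonoidAlgebra.single σ₀ 1 - 1) ^ M) *
    (MonoidAlgebra.single φ 1 * MonoidAlgebra.single φ 1 - MonoidAlgebra.single φ r + (p : MonoidAlgebra R Γℚ))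
  have hkill : Lg Z * D.act n e = 0 := by
    rw [← hL₀ L₀ le_rfl (D.gal n φ * D.gal n φ - D.act n r * D.gal n φ +
      (p : Module.End ℤ (D.X n))) ?_ fun y => hrel n _]
    · simp only [Z, map_mul, map_add, map_sub, map_pow, map_one, map_natCast, hLgo, hLg, hM]
    · have hc : Commute (D.act n e) (D.gal n φ) := D.commute n e φ
      exact ((hc.mul_right hc).sub_right (((Commute.all e r).map (D.act n)).mul_right hc)).add_right
        (Nat.cast_commute p _).symm
  have hsum : ∀ W : MonoidAlgebra R Γℚ,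
      Lg W = ∑ i ∈ W.coeff.support, D.act n (W.coeff i) * D.gal n i ∧
        Lρ W = ∑ i ∈ W.coeff.support, τ (W.coeff i) • ρ.ρ i := by
    intro W
    have hW : W = ∑ i ∈ W.coeff.support, MonoidAlgebra.single i (W.coeff i) :=
      (MonoidAlgebra.sum_coeff_single W).symm
    constructor
    · conv_lhs => rw [hW, map_sum]
      exact Finset.sum_congr rfl fun i _ => hLg _ _
    · conv_lhs => rw [hW, map_sum]
      exact Finset.sum_congr rfl fun i _ => hLρ _ _
  have htr : ∀ g, LinearMap.trace T ρ.V (ρ.ρ g * Lρ Z) ∈ maximalIdeal T ^ (k + 1) := by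
    intro g
    have h := trace_mem_of_kill_mul D ρ τ hpS hρ hirr (Nat.succ_ne_zero k) hn heu Z.coeff.support
      (fun i => Z.coeff i) (by
        rw [(hsum Z).1, Finset.sum_mul] at hkill
        simpa only [mul_assoc] using hkill) g
    rw [(hsum Z).2, Finset.mul_sum, map_sum]
    simpa only [mul_smul_comm, map_smul, smul_eq_mul, ← map_mul] using h
  have hentry : b.repr (Lρ Z (b 1)) 1 ∈ maximalIdeal T ^ (k + 1) := by
    let ψ : Matrix (Fin 2) (Fin 2) T →ₗ[T] T :=
      (Matrix.traceLinearMap (Fin 2) T T).comp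
        (LinearMap.mulRight T (LinearMap.toMatrix b b (Lρ Z)))
    have hle : Submodule.span T (Set.range fun g => LinearMap.toMatrix b b (ρ.ρ g)) ≤
        Submodule.comap ψ (maximalIdeal T ^ (k + 1)) := by
      rw [Submodule.span_le]
      rintro _ ⟨g, rfl⟩
      show (LinearMap.toMatrix b b (ρ.ρ g) * LinearMap.toMatrix b b (Lρ Z)).trace ∈
        maximalIdeal T ^ (k + 1)
      rw [← LinearMap.toMatrix_mul, ← LinearMap.trace_eq_matrix_trace]
      exact htr g
    have h := hle ((span_range_toMatrix_eq_top ρ hirr b).ge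
      (Submodule.mem_top (x := Matrix.single 1 1 (1 : T))))
    simpa [ψ, Matrix.trace_single_mul, LinearMap.toMatrix_apply] using h
  have hA0 : b.repr ((ρ.ρ σ₀ - 1) (b 0)) 1 = 0 := by
    simp [hI0 σ₀ hσ₀]
  have hA1 : b.repr ((ρ.ρ σ₀ - 1) (b 1)) 1 = 0 := by
    simp [hI1 σ₀ hσ₀]
  convert hentry using 1
  simp only [Z, map_mul, map_add, map_sub, map_pow, map_one, map_natCast, hLρo, hLρ, hM', pow_succ']
  rw [sub_mul, one_mul, mul_assoc, LinearMap.sub_apply, map_sub, Finsupp.sub_apply,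
    repr_mul_one b hA0, hA1, zero_mul, sub_zero]
  simp only [LinearMap.add_apply, LinearMap.sub_apply, LinearMap.smul_apply, map_add, map_sub,
    map_smul, Finsupp.add_apply, Finsupp.sub_apply, Finsupp.smul_apply, smul_eq_mul,
    Module.End.natCast_apply, map_nsmul, nsmul_eq_mul, Module.Basis.repr_self,
    Finsupp.single_eq_same, mul_one, repr_mul_one b hφ]
  ring

end Fermat.Agent.R59.UnitRoot
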