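import Fermat.Agent.R59.UnitRoot.Conn
import Fermat.Agent.R59.UnitRoot.Quot
import Fermat.Agent.R59.Setup.Inputs
import Fermat.Agent.R59.Setup.Coeff
import Fermat.Agent.R59.DefRings
import Fermat.Agent.RED.Specialization.Main
import Fermat.Agent.TraceFn.EichlerShimura
import Fermat.Agent.HK.TateFinal
import Fermat.Agent.GAL.S30Tate
import Fermat.Agent.TateE.Main
import Fermat.Agent.R59.TopRep.NotFlat

/-!
# The unit root at `p` of the base point of an ordinary problem

At level prime to `p` a residually ordinary point is ordinary, and the congruence relation on the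
reduction of `J₀(N)` makes Frobenius act on the unramified quotient by the unit root of
`X ^ 2 - a_p X + p`.
-/

set_option autoImplicit false
set_option synthInstance.maxHeartbeats 400000
set_option maxHeartbeats 1000000

noncomputable section

open IsLocalRing Polynomial ModularCurve
open Fermat.Agent.TraceFn
open Fermat.Agent.Galois (Qbar GalQ)

namespace Fermat.Agent.R59

/-- The unit root of `X ^ 2 - a X + c` is unique. -/
theorem unit_root_unique {A : Type} [CommRing A] [IsDomain A] {a c u v : A} (hc : ¬ IsUnit c)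
    (hu : IsUnit u) (hv : IsUnit v) (h1 : u ^ 2 - a * u + c = 0) (h2 : v ^ 2 - a * v + c = 0) :
    u = v := by
  rcases mul_eq_zero.mp (show (u - v) * (u + v - a) = 0 by linear_combination h1 - h2) with h | h
  · exact sub_eq_zero.mp h
  · refine absurd ?_ hc
    have : c = u * v := by linear_combination h1 - u * h
    exact this ▸ hu.mul hv

/-- The residual representation of an ordinary problem is ordinary. -/
theorem residual_ordinary_of_isBasePoint {W : WeierstrassCurve ℤ} {p : ℕ} [Fact p.Prime]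
    {hΔ : W.Δ ≠ 0} (hW : W.IsSemistableModel) (hp2 : p ≠ 2) (hd : (p : ℤ) ∣ W.Δ)
    {𝒪 : Type} [CommRing 𝒪] [IsDomain 𝒪] [IsDiscreteValuationRing 𝒪]
    [IsAdicComplete (maximalIdeal 𝒪) 𝒪] [Finite (ResidueField 𝒪)] [CharP (ResidueField 𝒪) p]
    {N : ℕ} [NeZero N]
    {χ : CuspForm.heckeAlgebra N 2 (↑N.primeFactors : Set ℕ) →+* 𝒪} {ρ : GaloisRepAdic 𝒪}
    (hb : IsBasePoint W hΔ p N χ ρ) :
    (GaloisRepAdic.ofResidualGaloisRep ρ.residual).IsOrdinaryAt p := by
  have : IsLocalHom (algebraMap 𝒪 𝒪) := ⟨fun _ hx => hx⟩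
  obtain ⟨ι, hι⟩ := exists_padicInt_localHom (p := p) hb.p_mem
  have hcurve := TateE.curveRep_cond hΔ ι hι hp2 hW .strict (fun h => by cases h) (fun _ => hd)
    (insert p W.Δ.natAbs.primeFactors) ∅ (Finset.mem_insert_self _ _) fun q hq hqd =>
      Finset.mem_insert_of_mem (Nat.mem_primeFactors.mpr
        ⟨hq, Int.natCast_dvd.mp hqd, Int.natAbs_ne_zero.mpr hΔ⟩)
  have hlift : IsCurveLift W p (curveResidual W hΔ p (ResidueField 𝒪))
      (TateE.curveRep W p hΔ ι hι) := TateE.curveRep_isCurveLift hΔ hp2 ι hι _ _ _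
  have hbar := (ofResidual_of_lift (closed_cond hp2 .strict _ ∅) hlift.residual hcurve).1.2.1
  obtain ⟨e⟩ := hb.residual
  obtain ⟨c⟩ := baseChangeAlong_of_eq_id (ResidueField.map (algebraMap 𝒪 𝒪))
    (ResidueField.map_id (R := 𝒪)) (curveResidual W hΔ p (ResidueField 𝒪))
  exact (Tangent.isStrictOrdinaryAt_of_isEquiv (ofResidualGaloisRep_isEquiv ⟨(e.trans c).symm⟩)
    hbar).isOrdinaryAt

/-- The residual representation of a base point is absolutely irreducible. -/
theorem residual_absIrr_of_isBasePoint {W : WeierstrassCurve ℤ} {p : ℕ} [Fact p.Prime]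
    {hΔ : W.Δ ≠ 0} (hp2 : p ≠ 2) (hirr : W.ModRepIsIrreducible p)
    {𝒪 : Type} [CommRing 𝒪] [IsDomain 𝒪] [IsLocalRing 𝒪] [CharP (ResidueField 𝒪) p]
    {ρ : GaloisRepAdic 𝒪}
    (hb : ρ.residual.IsEquiv (curveResidual W hΔ p (ResidueField 𝒪))) :
    ρ.residual.IsAbsolutelyIrreducible := by
  obtain ⟨e⟩ := hb
  refine (CondLevel.residual_isAbsolutelyIrreducible W hΔ p hp2 hirr _ fun σ => ?_).1
  have hconj : (curveResidual W hΔ p (ResidueField 𝒪)).ρ σ =
      e.toLinearEquiv.conj (ρ.residual.ρ σ) := by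
    refine LinearMap.ext fun x => ?_
    obtain ⟨y, rfl⟩ := e.toLinearEquiv.surjective x
    rw [LinearEquiv.conj_apply_apply, LinearEquiv.symm_apply_apply]
    exact (e.map_apply σ y).symm
  refine ⟨?_, ?_⟩
  · rw [← trace_curveResidual W hΔ p, hconj, LinearMap.trace_conj']
  · rw [← det_curveResidual W hΔ p, hconj, LinearEquiv.conj_apply, LinearMap.comp_assoc,
      LinearMap.det_conj]

open UnitRoot BAD.Ordinary in
/-- A point of level prime to `p` lifting an ordinary `E[p]` is ordinary, with the unit root of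
`X ^ 2 - a_p X + p` as Frobenius on the unramified quotient. -/
theorem exists_unitRoot_of_isBasePoint (hS37 : StmtSpec) {W : WeierstrassCurve ℤ} {p : ℕ}
    [Fact p.Prime] (hp2 : p ≠ 2) {hΔ : W.Δ ≠ 0} (hW : W.IsSemistableModel)
    (hirr : W.ModRepIsIrreducible p) (hd : (p : ℤ) ∣ W.Δ)
    {𝒪 : Type} [CommRing 𝒪] [IsDomain 𝒪] [IsDiscreteValuationRing 𝒪]
    [IsAdicComplete (maximalIdeal 𝒪) 𝒪] [Finite (ResidueField 𝒪)] [CharP (ResidueField 𝒪) p]
    {N : ℕ} [NeZero N]
    {χ : CuspForm.heckeAlgebra N 2 (↑N.primeFactors : Set ℕ) →+* 𝒪} {ρ : GaloisRepAdic 𝒪}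
    (hb : IsBasePoint W hΔ p N χ ρ) (hpN : ¬ p ∣ N)
    (hpS' : p ∉ (↑N.primeFactors : Set ℕ)) :
    ∃ α : 𝒪, IsUnit α ∧
      α ^ 2 + (p : 𝒪) = χ (CuspForm.heckeAlgebra.T (Fact.out : p.Prime) hpN hpS') * α ∧
      HasUnitRootFrob ρ p α := by
  have hp : p.Prime := Fact.out
  have hNS' : ∀ q : ℕ, q.Prime → q ∣ N → q ∈ N.primeFactors := fun q hq hd =>
    Nat.mem_primeFactors.mpr ⟨hq, hd, NeZero.ne N⟩
  have hfrob : JFrobeniusQuadratic N p :=
    jFrobeniusQuadratic_of_frobeniusQuadratic N p <|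
      letI := heckeModuleBar N
      haveI := Fermat.Agent.HK.Corr.smulCommClass_heckeModuleBar N
      frobeniusQuadratic_of_specializationExists
        (hS37 N p (HK.Corr.heckeOperatorsCommuteBar N) inferInstance)
  let D : QuadraticTower p (insert p N.primeFactors) (AwayHecke N.primeFactors) (awayGen N.primeFactors) :=
    torsionTower (JZero N) p _ (awayGen N.primeFactors) ((jHecke N).comp (awayIncl N.primeFactors))
      (fun r σ x => jHecke_galois N (awayIncl N.primeFactors r) σ x)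
      (jTorsFiniteLevel_of_torsionFiniteLevel N (HK.torsionFiniteLevel N p))
      (fun ℓ hℓ hℓS A hA σ hσ x hx => by
        simp only [Finset.mem_insert, not_or] at hℓS
        have hℓNp : ¬ ℓ ∣ N * p := fun h => (hℓ.dvd_mul.mp h).elim (fun h => hℓS.2 (hNS' ℓ hℓ h))
          fun h => hℓS.1 ((Nat.prime_dvd_prime_iff_eq hℓ hp).mp h)
        rw [RingHom.comp_apply, awayIncl_awayGen hℓ hℓS.2]
        exact hfrob ℓ hℓ hℓNp A hA σ hσ x hx)
  let τ : AwayHecke N.primeFactors →+* 𝒪 := χ.comp (awayEval N N.primeFactors hNS')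
  have hρ : QuadraticTower.FrobCompatible (S := insert p N.primeFactors) (a := awayGen N.primeFactors) ρ τ := by
    intro ℓ hℓ hℓS A hA σ hσ
    simp only [Finset.mem_insert, not_or] at hℓS
    have hℓN : ¬ ℓ ∣ N := fun h => hℓS.2 (hNS' ℓ hℓ h)
    rw [RingHom.comp_apply, awayEval_awayGen N N.primeFactors hNS' hℓ hℓN (fun h => hℓS.2 h)]
    exact hb.charpoly ℓ hℓ hℓN (fun h => hℓS.2 h) hℓS.1 A hA σ hσ
  have hsepτ : D.IsSeparating τ := by
    intro k
    obtain ⟨n, hn⟩ := HK.jHeckeFaithful N p hNS' k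
    refine ⟨n, fun r hr => ?_⟩
    obtain ⟨t, ht⟩ := hn r fun x hx => torsionTower_act_eq_zero (M := JZero N) hr x hx
    rw [RingHom.comp_apply, ht, map_nsmul, nsmul_eq_mul, Nat.cast_pow]
    exact Ideal.mul_mem_right _ _ (Ideal.pow_mem_pow hb.p_mem k)
  have hfin : ∀ n, Finite (torsLevel (JZero N) p n) := fun n =>
    (GAL.finite_jZero_torsion p N n).to_subtype
  have hred := residual_ordinary_of_isBasePoint hW hp2 hd hb
  obtain ⟨e⟩ := hb.residual
  obtain ⟨c⟩ := baseChangeAlong_of_eq_id (ResidueField.map (algebraMap 𝒪 𝒪))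
    (ResidueField.map_id (R := 𝒪)) (curveResidual W hΔ p (ResidueField 𝒪))
  have habs : ρ.residual.IsAbsolutelyIrreducible :=
    residual_absIrr_of_isBasePoint hp2 hirr ⟨e.trans c⟩
  let Kr : ValuationSubring Qbar → ∀ n, AddSubgroup (D.X n) := fun A n =>
    ((reductionModL A N).comp (torsLevel (JZero N) p n).subtype).ker
  have hKr : ∀ A n (x : D.X n), x ∈ Kr A n ↔ reductionModL A N (x.1 : JZero N) = 0 :=
    fun A n x => Iff.rfl
  have hK3 : ∀ P : ValuationSubring Qbar, P.LiesOverPrime p → ∀ n, ∀ U : AddSubgroup (D.X n),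
      (∀ σ ∈ P.inertiaSubgroupIn ℚ, ∀ x ∈ U, D.gal n σ x ∈ U) →
      (∀ g ∈ P.inertiaSubgroupIn ℚ, ∀ c : ℕ, g (zetaPow p 1) = zetaPow p 1 ^ c →
        ∀ x ∈ U, ∃ M : ℕ, (((D.gal n g - 1) * (D.gal n g - c)) ^ M) x = 0) →
      ∀ σ₀ ∈ P.inertiaSubgroupIn ℚ, σ₀ (zetaPow p 1) ≠ zetaPow p 1 →
        ∀ x ∈ U, x ∈ Kr P n → D.gal n σ₀ x = x → x = 0 := by
    intro P hP n U hU hfac σ₀ hσ₀ hne x hx hxK hfix
    have := hfin n
    exact eq_zero_of_reduction_eq_zero hpN hp2 hP n U hU hfac hσ₀ hne hx hxK hfix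
  have hK2 : ∀ P : ValuationSubring Qbar, P.LiesOverPrime p → ∀ n,
      ∀ σ ∈ P.inertiaSubgroupIn ℚ, ∀ x ∈ Kr P n, D.gal n σ x ∈ Kr P n := by
    intro P hP n σ hσ x hx
    show reductionModL P N (σ • (x.1 : JZero N)) = 0
    rw [RED.reductionModL_inertia hp hpN hP (RED.x0Lift hp hpN hP) hσ]
    exact hx
  have hord : ρ.IsOrdinaryAt p :=
    isOrdinaryAt_of_separates D (Finset.mem_insert_self _ _) hρ hb.p_mem hred hp2 hsepτ habs hfin
      fun P hP n => ⟨Kr P n, fun σ hσ x => by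
          show reductionModL P N (σ • (x.1 : JZero N) - x.1) = 0
          rw [map_sub, RED.reductionModL_inertia hp hpN hP (RED.x0Lift hp hpN hP) hσ, sub_self],
        hK2 P hP n, hK3 P hP n⟩
  set ap := χ (CuspForm.heckeAlgebra.T hp hpN hpS') with hap
  have key : ∀ P : ValuationSubring Qbar, P.LiesOverPrime p →
      ∃ L : Submodule 𝒪 ρ.V, (∃ b : Module.Basis (Fin 2) 𝒪 ρ.V, L = 𝒪 ∙ b 0) ∧
        (∀ σ ∈ P.decompositionSubgroup ℚ, ∀ v ∈ L, ρ.ρ σ v ∈ L) ∧
        (∀ σ ∈ P.inertiaSubgroupIn ℚ, ∀ v : ρ.V, ρ.ρ σ v - v ∈ L) ∧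
        ∀ φ : GalQ, P.IsFrobeniusAt φ p → ∃ u : 𝒪, IsUnit u ∧ u ^ 2 - ap * u + (p : 𝒪) = 0 ∧
          ∀ v : ρ.V, ρ.ρ φ v - u • v ∈ L := by
    intro P hP
    obtain ⟨L, ⟨b, rfl⟩, hD, hI⟩ := hord P hP
    refine ⟨_, ⟨b, rfl⟩, hD, hI, fun φ hφ => ⟨b.repr (ρ.ρ φ (b 1)) 1, ?_, ?_, ?_⟩⟩
    · have hD0 : b.repr (ρ.ρ φ (b 0)) 1 = 0 := by
        obtain ⟨t, ht⟩ := Submodule.mem_span_singleton.mp
          (hD φ hφ.mem_decompositionSubgroup (b 0) (Submodule.mem_span_singleton_self _))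
        rw [← ht]
        simp
      have hinv : ρ.ρ φ * ρ.ρ φ⁻¹ = 1 := by rw [← map_mul, mul_inv_cancel, map_one]
      refine IsUnit.of_mul_eq_one (b.repr (ρ.ρ φ⁻¹ (b 1)) 1) ?_
      rw [← repr_mul_one b hD0, hinv]
      simp
    · have h0 : ∀ σ ∈ P.decompositionSubgroup ℚ, b.repr (ρ.ρ σ (b 0)) 1 = 0 := fun σ hσ => by
        obtain ⟨t, ht⟩ := Submodule.mem_span_singleton.mp
          (hD σ hσ (b 0) (Submodule.mem_span_singleton_self _))
        rw [← ht]
        simp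
      have h1 : ∀ σ ∈ P.inertiaSubgroupIn ℚ, b.repr (ρ.ρ σ (b 1)) 1 = 1 := fun σ hσ => by
        obtain ⟨t, ht⟩ := Submodule.mem_span_singleton.mp (hI σ hσ (b 1))
        rw [show ρ.ρ σ (b 1) = b 1 + t • b 0 by rw [ht]; abel]
        simp
      have h := quot_frobenius_root D hp2 (Finset.mem_insert_self _ _) hρ hb.p_mem hred hP hsepτ
        habs hfin (Kr P) (hK2 P hP) (hK3 P hP) (φ := φ) (awayGen N.primeFactors p) (fun n x => ?_) b
        (h0 φ hφ.mem_decompositionSubgroup)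
        (fun σ hσ => h0 σ (Galois.inertia_le_decomposition _ hσ)) h1
      · rw [RingHom.comp_apply, awayEval_awayGen N N.primeFactors hNS' hp hpN hpS'] at h
        exact h
      · have hT : ∀ y : JZero N, jHecke N (awayIncl N.primeFactors (awayGen N.primeFactors p)) y =
            heckeOperatorBar N ⟨p, hp⟩ y := fun y => by
          rw [awayIncl_awayGen hp fun h => hpS' (Finset.mem_coe.mpr h), jHecke_apply,
            heckeModuleBar_heckeGen_smul (HK.Corr.heckeOperatorsCommuteBar N)]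
        refine (hKr P n _).mpr ?_
        have hq := RED.Spec.reductionModL_frobenius_quadratic hp hpN hP
          (RED.x0Lift hp hpN hP) φ hφ (x.1 : JZero N)
        rw [← hq]
        show reductionModL P N (φ • φ • (x.1 : JZero N) -
          jHecke N (awayIncl N.primeFactors (awayGen N.primeFactors p)) (φ • x.1) + p • (x.1 : JZero N)) = _
        rw [map_add, map_sub, map_nsmul, hT]
    · intro v
      obtain ⟨t, ht⟩ := Submodule.mem_span_singleton.mp
        (hD φ hφ.mem_decompositionSubgroup (b 0) (Submodule.mem_span_singleton_self _))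
      rw [Submodule.mem_span_singleton]
      refine ⟨b.repr v 0 * t + b.repr v 1 * b.repr (ρ.ρ φ (b 1)) 0 -
        b.repr (ρ.ρ φ (b 1)) 1 * b.repr v 0, b.repr.injective (Finsupp.ext fun i => ?_)⟩
      conv_rhs => rw [← b.sum_repr v, Fin.sum_univ_two, map_add, map_smul, map_smul, ← ht]
      fin_cases i <;> simp [mul_comm]
  obtain ⟨P₀, hP₀⟩ := Galois.exists_liesOverPrime (L := Qbar) hp
  obtain ⟨φ₀, hφ₀⟩ := Galois.exists_isFrobeniusAt hP₀ hp
  obtain ⟨_, -, -, -, hF⟩ := key P₀ hP₀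
  obtain ⟨α, hαu, hα, -⟩ := hF φ₀ hφ₀
  refine ⟨α, hαu, by linear_combination hα, fun P hP => ?_⟩
  obtain ⟨L, hL, hD, hI, hF⟩ := key P hP
  refine ⟨L, hL, hD, hI, fun φ hφ v => ?_⟩
  obtain ⟨u, hu, hur, huL⟩ := hF φ hφ
  obtain rfl := unit_root_unique hb.p_mem hu hαu hur hα
  exact huL v

/-- The unit root at `p` of the base point, from the existence of specialisations. -/
theorem stmtUnitRootPoint_of (hS37 : StmtSpec) : StmtUnitRootPoint := by
  intro W p hcore hΔ _ 𝒪 _ _ _ _ _ _ _ _ χ ρ hb _ hpN hpS'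
  obtain ⟨hp35, -, hW, hirr, hadm⟩ := hcore
  exact exists_unitRoot_of_isBasePoint hS37 (by rcases hp35 with rfl | rfl <;> decide) hW hirr
    hadm.1 hb hpN hpS'

end Fermat.Agent.R59
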