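import Fermat.Agent.BAD.Ordinary.ConnFixed
import Fermat.Agent.BAD.Ordinary.TowerOrdinary
import Fermat.Agent.FlatJ.Jacobian
import Fermat.Agent.FlatJ.Torsion
import Fermat.Agent.RED.X0LiftAll
import Fermat.Agent.TraceFn.JZero

/-!
# The kernel of reduction on the torsion of `J₀(N)` at a good prime

At a place over `p ∤ N` the kernel of reduction on `J₀(N)[p ^ n]` is the connected part of a finite
flat model, so it has no nonzero points fixed by a tame inertia element inside the part where
inertia has exponents `1` and the cyclotomic character.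
-/

set_option autoImplicit false
set_option synthInstance.maxHeartbeats 400000
set_option maxHeartbeats 1000000

noncomputable section

open AlgebraicCurve ModularCurve
open Fermat.Agent.TraceFn
open Fermat.Agent.Galois (Qbar GalQ)

namespace Fermat.Agent.R59.UnitRoot

/-- A lattice of equivariant functions is a model. -/
theorem isModel_of_funLattice {ℓ : ℕ} {M : Type} [AddCommGroup M] [Finite M]
    (T : FlatJ.FunLattice (GaloisRep.ratLocalizedAt ℓ) Qbar M) (act : GalQ → M → M)
    (heq : ∀ h ∈ T.H, ∀ σ x, h (act σ x) = σ (h x)) : FFG.IsModel ℚ act T.H where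
  finite := T.finite
  equivariant := heq
  separates x y h := by
    classical
    by_contra hne
    have key : ∀ g ∈ Submodule.span Qbar (Set.range fun i => ((T.basis i : T.H) : M → Qbar)),
        g x = g y := by
      intro g hg
      induction hg using Submodule.span_induction with
      | mem g hg => obtain ⟨i, rfl⟩ := hg; exact h _ (T.basis i).2
      | zero => rfl
      | add g g' _ _ h1 h2 => rw [Pi.add_apply, Pi.add_apply, h1, h2]
      | smul c g _ h1 => rw [Pi.smul_apply, Pi.smul_apply, h1]
    have h1 := key (Pi.single x 1) (by rw [T.spans]; exact Submodule.mem_top)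
    rw [Pi.single_eq_same, Pi.single_eq_of_ne (Ne.symm hne)] at h1
    exact one_ne_zero h1
  comul_mem f hf := by
    obtain ⟨t, ht⟩ := T.comul_mem f hf
    rw [← FFG.range_tmap_val]
    refine ⟨t, funext fun z => ?_⟩
    rw [FFG.pull_apply, ← ht z.1 z.2]
    show FFG.tmap T.H.val T.H.val t (z.1, z.2) = _
    clear ht
    induction t using TensorProduct.induction_on with
    | zero => simp
    | tmul a b => rw [FFG.tmap_tmul, FlatJ.pairEval_tmul]
    | add a b ha hb => simp only [map_add, Pi.add_apply, ha, hb]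

variable {N p : ℕ} [NeZero N] [Fact p.Prime]

/-- A finite flat model of `J₀(N)[p ^ n]` whose connected part contains the kernel of reduction. -/
theorem exists_model_ker_reduction (hpN : ¬ p ∣ N) {A : ValuationSubring Qbar}
    (hA : A.LiesOverPrime p) (n : ℕ) [Finite (torsLevel (JZero N) p n)] :
    ∃ B : Subalgebra (GaloisRep.ratLocalizedAt p) (torsLevel (JZero N) p n → Qbar),
      FFG.IsModel ℚ (fun σ x => galTors (JZero N) p n σ x) B ∧
      ∀ x : torsLevel (JZero N) p n, reductionModL A N (x : JZero N) = 0 →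
        ∀ f ∈ B, f x - f 0 ∈ A.nonunits := by
  have hp : p.Prime := Fact.out
  obtain ⟨hac, hinf⟩ := FlatJ.residueField_instances hp hA
  have := FlatJ.nonempty_place N
  have hlift := RED.x0Lift hp hpN hA
  obtain ⟨D, P, hP⟩ := FlatJ.exists_redSetup hp hpN hA hlift
  have hN : ∀ σ : GalQ, ∀ x ∈ torsLevel (JZero N) p n, σ • x ∈ torsLevel (JZero N) p n :=
    fun σ x hx => (galTors (JZero N) p n σ ⟨x, hx⟩).2
  obtain ⟨T, hT, hconn⟩ :=
    FlatJ.exists_funLattice_torsion D P hP hA hp (torsLevel (JZero N) p n) hN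
  refine ⟨T.H, isModel_of_funLattice T _ fun h hh σ x => hT h hh σ x, fun x hx => (hconn x).mpr ?_⟩
  have hin := RED.reductionInputsModL hp hpN hA hlift
  have hdeg : ∀ v, (D.r v).deg = v.deg := by
    intro v
    have h := D.degree_mapDomain (Finsupp.single v 1)
    rw [Finsupp.mapDomain_single, Divisor.degree_single, Divisor.degree_single] at h
    simpa using h
  have hr : IsPlaceReductionModL A N D.r := by
    refine ⟨hdeg, fun y hy hyk hne E hE Q => D.compat _ _ ⟨y, rfl, rfl⟩
      (fun e => hne (congrArg Subtype.val e)) E hE Q⟩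
  rw [RED.eq_x0RedPlace hp hpN hA hlift hr, ← RED.placeReductionModL_eq hp hpN hA hlift hin]
  rw [← FlatJ.mk_repDiv x, reductionModL_mk hin] at hx
  have h := (QuotientAddGroup.eq_zero_iff _).mp hx
  rw [AddSubgroup.mem_addSubgroupOf, coe_reductionDegZeroAlong] at h
  rw [FlatJ.Lin, sub_zero]
  exact h

open BAD.Ordinary in
/-- No nonzero tame fixed point of the `(1, χ)` part reduces to zero. -/
theorem eq_zero_of_reduction_eq_zero (hpN : ¬ p ∣ N) (hp2 : p ≠ 2) {A : ValuationSubring Qbar}
    (hA : A.LiesOverPrime p) (n : ℕ) [Finite (torsLevel (JZero N) p n)]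
    (U : AddSubgroup (torsLevel (JZero N) p n))
    (hU : ∀ σ ∈ A.inertiaSubgroupIn ℚ, ∀ x ∈ U, galTors (JZero N) p n σ x ∈ U)
    (hfac : ∀ g ∈ A.inertiaSubgroupIn ℚ, ∀ c : ℕ, g (zetaPow p 1) = zetaPow p 1 ^ c →
      ∀ x ∈ U, ∃ M : ℕ,
        (((galTors (JZero N) p n g - 1) * (galTors (JZero N) p n g - c)) ^ M) x = 0)
    {σ₀ : GalQ} (hσ₀ : σ₀ ∈ A.inertiaSubgroupIn ℚ) (hne : σ₀ (zetaPow p 1) ≠ zetaPow p 1)
    {x : torsLevel (JZero N) p n} (hx : x ∈ U) (hred : reductionModL A N (x : JZero N) = 0)
    (hfix : galTors (JZero N) p n σ₀ x = x) : x = 0 := by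
  have hp : p.Prime := Fact.out
  obtain ⟨B, hB, hconn⟩ := exists_model_ker_reduction hpN hA n
  let U' : AddSubgroup (torsLevel (JZero N) p n) :=
    U ⊓ ((reductionModL A N).comp (torsLevel (JZero N) p n).subtype).ker
  have hker : ∀ y, y ∈ U' ↔ y ∈ U ∧ reductionModL A N (y : JZero N) = 0 := fun y => Iff.rfl
  refine eq_zero_of_connected_of_fixed hp2 hB hA (n := n) U'
    (fun y _ => Subtype.ext ((mem_torsLevel (JZero N)).mp y.2))
    (fun y hy => hconn y ((hker y).mp hy).2) (fun g hg y hy => ?_)
    (by simpa only [pow_one] using zetaPow_spec p 1) (fun g hg c hc y hy => ?_) hσ₀ hne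
    ((hker x).mpr ⟨hx, hred⟩) hfix
  · obtain ⟨h1, h2⟩ := (hker y).mp hy
    refine (hker _).mpr ⟨hU g hg y h1, ?_⟩
    rw [galTors_apply, RED.reductionModL_inertia hp hpN hA (RED.x0Lift hp hpN hA) hg, h2]
  · obtain ⟨M, hM⟩ := hfac g hg c hc y ((hker y).mp hy).1
    refine ⟨M, ?_⟩
    have key : ∀ (G : Module.End ℤ (torsLevel (JZero N) p n)) z,
        facOp (fun w => G w) c z = ((G - 1) * (G - c)) z := fun G z => by
      simp [facOp, Module.End.mul_apply]
    rw [show facOp (fun w => galTors (JZero N) p n g w) c =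
      ⇑((galTors (JZero N) p n g - 1) * (galTors (JZero N) p n g - c)) from funext (key _),
      ← Module.End.coe_pow]
    exact hM

end Fermat.Agent.R59.UnitRoot
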